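import Fermat.Agent.S30.WilesSat
import Fermat.Agent.S30.WilesIdentities
import Fermat.Agent.S30.Iface

section MergeWrap_S30_DensityAlg -- from S30/DensityAlg.lean

set_option autoImplicit false

/-!
# S30 p-adic core, part 6: from "Frobenius powers are dense" to the quadratic relation (algebra)

`SmallEnd I T` : the endomorphism `T` maps `Λ` into `I Λ`.  If `g ^ k ≡ τ` and `g ^ (k j) ≡ g`
modulo `I` and `τ` is killed by `X² - a X + ℓ` with `ε τ = ℓ`, then `ρ g + ε(g) ρ(g)⁻¹` is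
congruent to a scalar modulo `I` (Lucas sequence).  An endomorphism of a nonzero finite free
module over a discrete valuation ring which is congruent to a scalar modulo every power of the
maximal ideal is a scalar.
-/

namespace Fermat.Agent.S30

open Module IsLocalRing

section Small

variable {R : Type*} [CommRing R] {Λ : Type*} [AddCommGroup Λ] [Module R Λ] (I : Ideal R)

/-- `T` maps `Λ` into `I Λ`. -/
def SmallEnd (T : Module.End R Λ) : Prop := ∀ x : Λ, T x ∈ I • (⊤ : Submodule R Λ)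

variable {I}

theorem map_mem_smul_top (S : Module.End R Λ) {x : Λ} (hx : x ∈ I • (⊤ : Submodule R Λ)) :
    S x ∈ I • (⊤ : Submodule R Λ) := by
  refine Submodule.smul_induction_on hx ?_ ?_
  · intro r hr n _
    rw [map_smul]
    exact Submodule.smul_mem_smul hr Submodule.mem_top
  · intro y z hy hz
    rw [map_add]
    exact Submodule.add_mem _ hy hz

theorem SmallEnd.zero : SmallEnd I (0 : Module.End R Λ) := fun _ => Submodule.zero_mem _

theorem SmallEnd.add {T T' : Module.End R Λ} (h : SmallEnd I T) (h' : SmallEnd I T') :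
    SmallEnd I (T + T') := fun x => Submodule.add_mem _ (h x) (h' x)

theorem SmallEnd.sub {T T' : Module.End R Λ} (h : SmallEnd I T) (h' : SmallEnd I T') :
    SmallEnd I (T - T') := fun x => Submodule.sub_mem _ (h x) (h' x)

theorem SmallEnd.neg {T : Module.End R Λ} (h : SmallEnd I T) :
    SmallEnd I (-T) := fun x => Submodule.neg_mem _ (h x)

theorem SmallEnd.mul_left (S : Module.End R Λ) {T : Module.End R Λ} (h : SmallEnd I T) :
    SmallEnd I (S * T) := fun x => map_mem_smul_top S (h x)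

theorem SmallEnd.mul_right {T : Module.End R Λ} (h : SmallEnd I T) (S : Module.End R Λ) :
    SmallEnd I (T * S) := fun x => h (S x)

theorem SmallEnd.smul (r : R) {T : Module.End R Λ} (h : SmallEnd I T) :
    SmallEnd I (r • T) := fun x => Submodule.smul_mem _ r (h x)

theorem smallEnd_smul {r : R} (hr : r ∈ I) (S : Module.End R Λ) : SmallEnd I (r • S) :=
  fun _ => Submodule.smul_mem_smul hr Submodule.mem_top

theorem SmallEnd.congr {T T' : Module.End R Λ} (h : SmallEnd I T) (e : T = T') :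
    SmallEnd I T' := e ▸ h

theorem SmallEnd.mul_sub_mul {A B A' B' : Module.End R Λ} (hA : SmallEnd I (A - A'))
    (hB : SmallEnd I (B - B')) : SmallEnd I (A * B - A' * B') := by
  have e : A * B - A' * B' = (A - A') * B + A' * (B - B') := by
    rw [sub_mul, mul_sub]; abel
  rw [e]
  exact (hA.mul_right B).add (hB.mul_left A')

theorem SmallEnd.pow_sub_pow {A B : Module.End R Λ} (h : SmallEnd I (A - B)) (j : ℕ) :
    SmallEnd I (A ^ j - B ^ j) := by
  induction j with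
  | zero => simp only [pow_zero, sub_self]; exact SmallEnd.zero
  | succ j ih =>
    rw [pow_succ, pow_succ]
    exact ih.mul_sub_mul h

end Small

section Lucas

variable {R : Type*} [CommRing R] {Λ : Type*} [AddCommGroup Λ] [Module R Λ]

/-- If `F F' = ℓ` and `F + F' = a` (scalars), then `F ^ j + F' ^ j` is a scalar. -/
theorem exists_pow_add_pow_eq_smul (F F' : Module.End R Λ) (a ℓ : R)
    (hadd : F + F' = a • (1 : Module.End R Λ)) (hmul : F * F' = ℓ • (1 : Module.End R Λ))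
    (hmul' : F' * F = ℓ • (1 : Module.End R Λ)) (j : ℕ) :
    ∃ v : R, F ^ j + F' ^ j = v • (1 : Module.End R Λ) := by
  suffices h : ∀ j : ℕ, (∃ v : R, F ^ j + F' ^ j = v • (1 : Module.End R Λ)) ∧
      (∃ v : R, F ^ (j + 1) + F' ^ (j + 1) = v • (1 : Module.End R Λ)) from (h j).1
  intro j
  induction j with
  | zero =>
    refine ⟨⟨2, ?_⟩, ⟨a, ?_⟩⟩
    · rw [pow_zero, pow_zero, two_smul]
    · rw [zero_add, pow_one, pow_one, hadd]
  | succ j ih =>
    obtain ⟨⟨v0, h0⟩, ⟨v1, h1⟩⟩ := ih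
    refine ⟨⟨v1, h1⟩, ⟨a * v1 - ℓ * v0, ?_⟩⟩
    have e : F ^ (j + 1 + 1) + F' ^ (j + 1 + 1) =
        (F + F') * (F ^ (j + 1) + F' ^ (j + 1)) - (F * F') * F' ^ j - (F' * F) * F ^ j := by
      rw [add_mul, mul_add, mul_add, pow_succ' F (j + 1), pow_succ' F' (j + 1),
        pow_succ' F' j, pow_succ' F j, mul_assoc, mul_assoc]
      abel
    have e2 : (ℓ • (1 : Module.End R Λ)) * F' ^ j + (ℓ • (1 : Module.End R Λ)) * F ^ j =
        (ℓ * v0) • (1 : Module.End R Λ) := by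
      rw [← mul_add, add_comm, h0, smul_mul_smul_comm, one_mul]
    calc F ^ (j + 1 + 1) + F' ^ (j + 1 + 1)
        = (a • (1 : Module.End R Λ)) * (v1 • (1 : Module.End R Λ))
            - ((ℓ • (1 : Module.End R Λ)) * F' ^ j + (ℓ • (1 : Module.End R Λ)) * F ^ j) := by
          rw [e, hadd, h1, hmul, hmul']; abel
      _ = (a * v1 - ℓ * v0) • (1 : Module.End R Λ) := by
          rw [e2, smul_mul_smul_comm, one_mul, sub_smul]

end Lucas

section Cong

variable {R : Type*} [CommRing R] {G : Type*} [Group G]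
  {Λ : Type*} [AddCommGroup Λ] [Module R Λ]

/-- The algebraic core of the density argument. -/
theorem exists_scalar_cong (ρ : G →* Module.End R Λ) (ε : G →* Rˣ) (I : Ideal R)
    (g τ : G) (k j : ℕ) (a ℓ : R)
    (hF : ρ τ * ρ τ - a • ρ τ + ℓ • (1 : Module.End R Λ) = 0) (hετ : ((ε τ : Rˣ) : R) = ℓ)
    (h1 : SmallEnd I (ρ (τ⁻¹ * g ^ k) - 1)) (h2 : SmallEnd I (ρ (g⁻¹ * g ^ (k * j)) - 1))
    (e1 : ((ε (τ⁻¹ * g ^ k) : Rˣ) : R) - 1 ∈ I)
    (e2 : ((ε (g⁻¹ * g ^ (k * j)) : Rˣ) : R) - 1 ∈ I) :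
    ∃ v : R, SmallEnd I (ρ g + ((ε g : Rˣ) : R) • ρ g⁻¹ - v • (1 : Module.End R Λ)) := by
  set F : Module.End R Λ := ρ τ with hFdef
  set F' : Module.End R Λ := a • (1 : Module.End R Λ) - F with hF'def
  have hadd : F + F' = a • (1 : Module.End R Λ) := by rw [hF'def]; abel
  have h0 : ℓ • (1 : Module.End R Λ) - (a • F - F * F) = 0 := by
    rw [← hF]; abel
  have hmul : F * F' = ℓ • (1 : Module.End R Λ) := by
    rw [hF'def, mul_sub, mul_smul_comm, mul_one]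
    exact (sub_eq_zero.mp h0).symm
  have hmul' : F' * F = ℓ • (1 : Module.End R Λ) := by
    rw [hF'def, sub_mul, smul_mul_assoc, one_mul]
    exact (sub_eq_zero.mp h0).symm
  obtain ⟨v, hv⟩ := exists_pow_add_pow_eq_smul F F' a ℓ hadd hmul hmul' j
  refine ⟨v, ?_⟩
  -- `ρ (g ^ k) ≡ F`
  have c1 : SmallEnd I (ρ (g ^ k) - F) := by
    have e : ρ (g ^ k) - F = F * (ρ (τ⁻¹ * g ^ k) - 1) := by
      rw [mul_sub, mul_one, hFdef, ← map_mul, mul_inv_cancel_left]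
    rw [e]
    exact h1.mul_left F
  -- `ρ g ≡ F ^ j`
  have c2 : SmallEnd I (ρ (g ^ (k * j)) - F ^ j) := by
    rw [pow_mul, map_pow]
    exact c1.pow_sub_pow j
  have c3 : SmallEnd I (ρ (g ^ (k * j)) - ρ g) := by
    have e : ρ (g ^ (k * j)) - ρ g = ρ g * (ρ (g⁻¹ * g ^ (k * j)) - 1) := by
      rw [mul_sub, mul_one, ← map_mul, mul_inv_cancel_left]
    rw [e]
    exact h2.mul_left _
  have c4 : SmallEnd I (ρ g - F ^ j) := by
    have e : ρ g - F ^ j = (ρ (g ^ (k * j)) - F ^ j) - (ρ (g ^ (k * j)) - ρ g) := by abel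
    rw [e]
    exact c2.sub c3
  -- `ε g ≡ ℓ ^ j`
  have d1 : ((ε (g ^ k) : Rˣ) : R) - ℓ ∈ I := by
    have e : ((ε (g ^ k) : Rˣ) : R) - ℓ = ℓ * (((ε (τ⁻¹ * g ^ k) : Rˣ) : R) - 1) := by
      rw [← hετ, mul_sub, mul_one, ← Units.val_mul, ← map_mul, mul_inv_cancel_left]
    rw [e]
    exact Ideal.mul_mem_left _ _ e1
  have d2 : ((ε (g ^ (k * j)) : Rˣ) : R) - ℓ ^ j ∈ I := by
    have hx : ((ε (g ^ (k * j)) : Rˣ) : R) = ((ε (g ^ k) : Rˣ) : R) ^ j := by
      rw [pow_mul, map_pow ε (g ^ k) j, Units.val_pow_eq_pow_val]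
    rw [hx]
    obtain ⟨c, hc⟩ := sub_dvd_pow_sub_pow ((ε (g ^ k) : Rˣ) : R) ℓ j
    rw [hc]
    exact Ideal.mul_mem_right _ _ d1
  have d3 : ((ε (g ^ (k * j)) : Rˣ) : R) - ((ε g : Rˣ) : R) ∈ I := by
    have e : ((ε (g ^ (k * j)) : Rˣ) : R) - ((ε g : Rˣ) : R) =
        ((ε g : Rˣ) : R) * (((ε (g⁻¹ * g ^ (k * j)) : Rˣ) : R) - 1) := by
      rw [mul_sub, mul_one, ← Units.val_mul, ← map_mul, mul_inv_cancel_left]
    rw [e]
    exact Ideal.mul_mem_left _ _ e2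
  have d4 : ((ε g : Rˣ) : R) - ℓ ^ j ∈ I := by
    have e : ((ε g : Rˣ) : R) - ℓ ^ j =
        (((ε (g ^ (k * j)) : Rˣ) : R) - ℓ ^ j) - (((ε (g ^ (k * j)) : Rˣ) : R) - ((ε g : Rˣ) : R)) := by
      ring
    rw [e]
    exact Ideal.sub_mem _ d2 d3
  -- `F' ^ j * F ^ j = ℓ ^ j`
  have hcomm : Commute F' F := by
    show F' * F = F * F'
    rw [hmul, hmul']
  have hpow : F' ^ j * F ^ j = (ℓ ^ j) • (1 : Module.End R Λ) := by
    rw [← hcomm.mul_pow, hmul', smul_pow, one_pow]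
  -- `(ε g • ρ g⁻¹ - F' ^ j) * ρ g` is small
  have c5 : SmallEnd I ((((ε g : Rˣ) : R) • ρ g⁻¹ - F' ^ j) * ρ g) := by
    have e : (((ε g : Rˣ) : R) • ρ g⁻¹ - F' ^ j) * ρ g =
        (((ε g : Rˣ) : R) - ℓ ^ j) • (1 : Module.End R Λ) - F' ^ j * (ρ g - F ^ j) := by
      rw [sub_mul, smul_mul_assoc, rho_inv_mul_rho, mul_sub, hpow, sub_smul]
      abel
    rw [e]
    exact (smallEnd_smul d4 _).sub (c4.mul_left _)
  have c6 : SmallEnd I (((ε g : Rˣ) : R) • ρ g⁻¹ - F' ^ j) := by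
    have e : ((ε g : Rˣ) : R) • ρ g⁻¹ - F' ^ j =
        ((((ε g : Rˣ) : R) • ρ g⁻¹ - F' ^ j) * ρ g) * ρ g⁻¹ := by
      rw [mul_assoc, rho_mul_rho_inv, mul_one]
    rw [e]
    exact c5.mul_right _
  have e : ρ g + ((ε g : Rˣ) : R) • ρ g⁻¹ - v • (1 : Module.End R Λ) =
      (ρ g - F ^ j) + (((ε g : Rˣ) : R) • ρ g⁻¹ - F' ^ j) := by
    rw [← hv]; abel
  rw [e]
  exact c4.add c6

/-- From "`ρ g + ε(g) ρ(g)⁻¹` is a scalar" to the quadratic relation. -/
theorem quadRel_of_scalar (ρ : G →* Module.End R Λ) (ε : G →* Rˣ) (t : G → R)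
    (h : ∀ g : G, ρ g + ((ε g : Rˣ) : R) • ρ g⁻¹ = t g • (1 : Module.End R Λ)) :
    QuadRel ρ ε t := by
  intro g
  have h1 : (ρ g + ((ε g : Rˣ) : R) • ρ g⁻¹) * ρ g = (t g • (1 : Module.End R Λ)) * ρ g := by
    rw [h g]
  rw [add_mul, smul_mul_assoc, rho_inv_mul_rho, smul_mul_assoc, one_mul] at h1
  rw [← h1]
  abel

end Cong

section Limit

variable {R : Type*} [CommRing R] [IsDomain R] [IsDiscreteValuationRing R]
  {Λ : Type*} [AddCommGroup Λ] [Module R Λ] [Module.Free R Λ] [Module.Finite R Λ] [Nontrivial Λ]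

/-- An endomorphism which is congruent to a scalar modulo every power of the maximal ideal is a
scalar. -/
theorem exists_eq_smul_one_of_forall_smallEnd (u : Module.End R Λ)
    (h : ∀ n : ℕ, ∃ v : R, SmallEnd (maximalIdeal R ^ n) (u - v • (1 : Module.End R Λ))) :
    ∃ t : R, u = t • (1 : Module.End R Λ) := by
  classical
  obtain ⟨ϖ, hϖ⟩ := IsDiscreteValuationRing.exists_irreducible R
  let b := Module.Free.chooseBasis R Λ
  obtain ⟨x₀, hx₀⟩ := exists_ne (0 : Λ)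
  have hι : Nonempty (Module.Free.ChooseBasisIndex R Λ) := by
    by_contra hne
    rw [not_nonempty_iff] at hne
    apply hx₀
    apply b.ext_elem
    intro i
    exact hne.elim i
  obtain ⟨i₀⟩ := hι
  refine ⟨b.repr (u (b i₀)) i₀, ?_⟩
  set t := b.repr (u (b i₀)) i₀ with ht
  have hK : (⨅ i : ℕ, (maximalIdeal R ^ i) • (⊤ : Submodule R Λ)) = ⊥ :=
    Ideal.iInf_pow_smul_eq_bot_of_isLocalRing (maximalIdeal R) (Ideal.IsPrime.ne_top inferInstance)
  ext x
  have hmem : ∀ n : ℕ, u x - t • x ∈ (maximalIdeal R ^ n) • (⊤ : Submodule R Λ) := by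
    intro n
    obtain ⟨v, hv⟩ := h n
    -- `t - v ∈ 𝔪 ^ n`
    have h1 := hv (b i₀)
    obtain ⟨z, hz⟩ := (mem_maximalIdeal_pow_smul_top hϖ n _).mp h1
    have h2 : t - v = ϖ ^ n * b.repr z i₀ := by
      have := congrArg (fun y => b.repr y i₀) hz
      simp only [LinearMap.sub_apply, LinearMap.smul_apply, Module.End.one_apply, map_sub,
        map_smul, Finsupp.coe_sub, Finsupp.coe_smul, Pi.sub_apply, Pi.smul_apply,
        Module.Basis.repr_self, Finsupp.single_eq_same, smul_eq_mul, mul_one] at this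
      rw [ht]; exact this
    have h3 : t - v ∈ maximalIdeal R ^ n := by
      rw [hϖ.maximalIdeal_eq, Ideal.span_singleton_pow, Ideal.mem_span_singleton, h2]
      exact dvd_mul_right _ _
    have e : u x - t • x = (u - v • (1 : Module.End R Λ)) x - (t - v) • x := by
      simp only [LinearMap.sub_apply, LinearMap.smul_apply, Module.End.one_apply, sub_smul]
      abel
    rw [e]
    exact Submodule.sub_mem _ (hv x) (Submodule.smul_mem_smul h3 Submodule.mem_top)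
  have : u x - t • x ∈ (⨅ i : ℕ, (maximalIdeal R ^ i) • (⊤ : Submodule R Λ)) := by
    rw [Submodule.mem_iInf]
    exact hmem
  rw [hK] at this
  have := (Submodule.mem_bot R).mp this
  simp only [LinearMap.smul_apply, Module.End.one_apply]
  exact sub_eq_zero.mp this

end Limit

end Fermat.Agent.S30
end MergeWrap_S30_DensityAlg

section MergeWrap_S30_DensityGal -- from S30/DensityGal.lean

set_option autoImplicit false

/-!
# S30 p-adic core, part 7: the quadratic relation for every element of `G_ℚ`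

From `F3.FrobDensityLite`, a `FrobLattice` and the cyclotomic character we get a function
`t : G_ℚ → 𝒪` with `ρ(g)² - t(g) ρ(g) + ε(g) = 0` for every `g`, and `t(σ) = a_ℓ` for every
Frobenius element `σ` at a prime `ℓ ∉ S`.
-/

namespace Fermat.Agent.S30

open Module IsLocalRing

section

local instance isAlgebraicQbar_s30 : Algebra.IsAlgebraic ℚ (AlgebraicClosure ℚ) :=
  AlgebraicClosure.isAlgebraic ℚ
local instance isAlgClosureQbar_s30 : IsAlgClosure ℚ (AlgebraicClosure ℚ) :=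
  ⟨inferInstance, inferInstance⟩
local instance normalQbar_s30 : Normal ℚ (AlgebraicClosure ℚ) :=
  IsAlgClosure.normal ℚ (AlgebraicClosure ℚ)

variable {p N : ℕ} {S : Finset ℕ} {𝒪 : Type} [CommRing 𝒪] [IsDomain 𝒪]
  [IsDiscreteValuationRing 𝒪]

/-- For every `g` and every `n`, `ρ g + ε(g) ρ(g)⁻¹` is congruent to a scalar mod `𝔪 ^ n`. -/
theorem exists_scalar_cong_galois (hdens : F3.FrobDensityLite) (hpS : p ∈ S) (a : ℕ → 𝒪)
    (L : FrobLattice p N S 𝒪 a) (E : CycloCharData p 𝒪) (g : GQ) (n : ℕ) :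
    ∃ v : 𝒪, SmallEnd (maximalIdeal 𝒪 ^ n)
      (L.ρ g + ((E.ε g : 𝒪ˣ) : 𝒪) • L.ρ g⁻¹ - v • (1 : Module.End 𝒪 L.Λ)) := by
  obtain ⟨L₁, hL₁fin, hL₁⟩ := L.cont n
  obtain ⟨L₂, hL₂fin, hL₂⟩ := E.level n
  let L₀ : IntermediateField ℚ (AlgebraicClosure ℚ) :=
    IntermediateField.normalClosure ℚ ↥(L₁ ⊔ L₂) (AlgebraicClosure ℚ)
  have hL₀fin : FiniteDimensional ℚ L₀ := inferInstance
  have hL₀norm : Normal ℚ L₀ :=
    normalClosure.normal ℚ ↥(L₁ ⊔ L₂) (AlgebraicClosure ℚ)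
  have hle : L₁ ⊔ L₂ ≤ L₀ := IntermediateField.le_normalClosure _
  have hle₁ : L₁ ≤ L₀ := le_sup_left.trans hle
  have hle₂ : L₂ ≤ L₀ := le_sup_right.trans hle
  obtain ⟨ℓ, A, τ, k, j, hℓ, hℓS, hA, hτ, hτk, hkj⟩ := hdens L₀ hL₀fin hL₀norm g S
  have hℓp : ℓ ≠ p := fun h => hℓS (h ▸ hpS)
  -- the two elements fixing `L₀`
  have hfix₁ : ∀ x ∈ L₀, (τ⁻¹ * g ^ k) x = x := by
    intro x hx
    rw [AlgEquiv.mul_apply, ← hτk x hx, AlgEquiv.aut_inv, AlgEquiv.symm_apply_apply]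
  have hfix₂ : ∀ x ∈ L₀, (g⁻¹ * g ^ (k * j)) x = x := by
    intro x hx
    rw [AlgEquiv.mul_apply, hkj x hx, AlgEquiv.aut_inv, AlgEquiv.symm_apply_apply]
  have h1 : SmallEnd (maximalIdeal 𝒪 ^ n) (L.ρ (τ⁻¹ * g ^ k) - 1) := by
    intro x
    exact hL₁ _ (fun y hy => hfix₁ y (hle₁ hy)) x
  have h2 : SmallEnd (maximalIdeal 𝒪 ^ n) (L.ρ (g⁻¹ * g ^ (k * j)) - 1) := by
    intro x
    exact hL₁ _ (fun y hy => hfix₂ y (hle₁ hy)) x
  have e1 := hL₂ _ (fun y hy => hfix₁ y (hle₂ hy))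
  have e2 := hL₂ _ (fun y hy => hfix₂ y (hle₂ hy))
  exact exists_scalar_cong L.ρ E.ε (maximalIdeal 𝒪 ^ n) g τ k j (a ℓ) (ℓ : 𝒪)
    (L.frob ℓ hℓ hℓS A hA τ hτ) (E.frob ℓ hℓ hℓp A hA τ hτ) h1 h2 e1 e2

/-- **The quadratic relation for all of `G_ℚ`.** -/
theorem exists_quadRel_of_frobLattice (hdens : F3.FrobDensityLite) (hpS : p ∈ S) (a : ℕ → 𝒪)
    (L : FrobLattice p N S 𝒪 a) (E : CycloCharData p 𝒪) :
    ∃ t : GQ → 𝒪, QuadRel L.ρ E.ε t ∧
      ∀ ℓ : ℕ, ℓ.Prime → ℓ ∉ S →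
        ∀ A : ValuationSubring (AlgebraicClosure ℚ), A.LiesOverPrime ℓ →
          ∀ σ : GQ, A.IsFrobeniusAt σ ℓ → t σ = a ℓ := by
  have hsc : ∀ g : GQ, ∃ t : 𝒪,
      L.ρ g + ((E.ε g : 𝒪ˣ) : 𝒪) • L.ρ g⁻¹ = t • (1 : Module.End 𝒪 L.Λ) := fun g =>
    exists_eq_smul_one_of_forall_smallEnd _
      (fun n => exists_scalar_cong_galois hdens hpS a L E g n)
  choose t ht using hsc
  have hQ : QuadRel L.ρ E.ε t := quadRel_of_scalar L.ρ E.ε t ht
  refine ⟨t, hQ, ?_⟩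
  intro ℓ hℓ hℓS A hA σ hσ
  have hℓp : ℓ ≠ p := fun h => hℓS (h ▸ hpS)
  have h1 := hQ σ
  have h2 := L.frob ℓ hℓ hℓS A hA σ hσ
  have h3 := E.frob ℓ hℓ hℓp A hA σ hσ
  rw [h3] at h1
  have h4 : (t σ - a ℓ) • L.ρ σ = 0 := by
    have : (t σ - a ℓ) • L.ρ σ =
        (L.ρ σ * L.ρ σ - a ℓ • L.ρ σ + (ℓ : 𝒪) • (1 : Module.End 𝒪 L.Λ))
          - (L.ρ σ * L.ρ σ - t σ • L.ρ σ + (ℓ : 𝒪) • (1 : Module.End 𝒪 L.Λ)) := by
      rw [sub_smul]; abel
    rw [this, h1, h2, sub_zero]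
  obtain ⟨x₀, hx₀⟩ := exists_ne (0 : L.Λ)
  have h5 : (t σ - a ℓ) • (L.ρ σ x₀) = 0 := by
    have := congrArg (fun F : Module.End 𝒪 L.Λ => F x₀) h4
    simpa using this
  have h6 : L.ρ σ x₀ ≠ 0 := by
    intro h
    apply hx₀
    have := rho_inv_apply_apply L.ρ σ x₀
    rw [h, map_zero] at this
    exact this.symm
  exact sub_eq_zero.mp ((smul_eq_zero.mp h5).resolve_right h6)

end

end Fermat.Agent.S30
end MergeWrap_S30_DensityGal
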